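/-
M59 / ENGINE, LEVEL 1, cell [ENTRY-W] (helper18).  Prefix `m59io_`.

`m59io_entry : m59e_Entry_stmt` (the Prop landed in `M59/Top/EngSeams.lean`), UNCONDITIONAL.

Frey-free twin of `TW/Easy/Entry2.lean`: the eigencharacter of the normalised eigenform `f` of
level `M`, reduced modulo the maximal ideal `𝔪 ∋ p` of the ring of algebraic integers, takes its
values in the prime field (`twfe_exists_theta`), and sends `T_ℓ` to `a_ℓ(W) mod p` for the primes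
`ℓ ∤ M`, `ℓ ∉ S` (those are good for `W` and different from `p`, because `S` is a bad set).
-/
import Mathlib
import Fermat.Agent.M59.Top.EngSeams
import Fermat.Agent.TW.Easy.EntryTheta

set_option autoImplicit false

namespace Fermat.Agent.M59

open Fermat.Agent.TW

/-- **[ENTRY-W]**: a residually modular `W` of level `M` gives a mod-`p` eigensystem of level `M`
away from `S` with `T_ℓ ↦ a_ℓ(W)`. -/
theorem m59io_entry : m59e_Entry_stmt := by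
  intro p hp W M S hM hS hMS hR
  haveI : NeZero M := ⟨hM.ne'⟩
  obtain ⟨f, 𝔪, hf, h𝔪, hp𝔪, hcong⟩ := hR
  have hMS' : ∀ q : ℕ, q.Prime → q ∣ M → q ∈ (↑S : Set ℕ) := fun q hq hqM =>
    Finset.mem_coe.mpr (hMS q hq hqM)
  have hne : ∀ ℓ : ℕ, ℓ ∉ (↑S : Set ℕ) → ℓ ≠ p := fun ℓ hℓS h =>
    hℓS (by rw [h]; exact Finset.mem_coe.mpr hS.1)
  have hgood : ∀ ℓ : ℕ, ℓ.Prime → ℓ ∉ (↑S : Set ℕ) → W.IsGoodPrimeFor ℓ := fun ℓ hℓ hℓS => by
    by_contra h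
    exact hℓS (Finset.mem_coe.mpr (hS.2 ℓ hℓ h))
  obtain ⟨θ, hθ⟩ := twfe_exists_theta hp.out (↑S : Set ℕ) hMS' hf 𝔪 h𝔪 hp𝔪
    (fun ℓ => W.apOfModel ℓ)
    (fun ℓ hℓ hℓM hℓS => hcong ℓ hℓ (hgood ℓ hℓ hℓS) hℓM (hne ℓ hℓS))
  exact ⟨inferInstance, ZMod p, inferInstance, ZMod.charP p, θ,
    fun ℓ hℓ hℓM hℓS => hθ ℓ hℓ hℓM hℓS⟩

end Fermat.Agent.M59
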