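/-
M59 / ENGINE, LEVEL 1, cell [EXIT-0], abstract part (helper18).  Mathlib only.  Prefix `m59io_`.

`R` a commutative ring, finite as a `ℤ`-module, acting FAITHFULLY (`act : R →+* End_ℤ B` injective)
on a finitely generated `ℤ`-module `B`; `θ : R →+* K` a ring homomorphism to a domain of
characteristic `0`.

* `m59io_exists_eigen0` : there is `x ≠ 0` in `B` killed by every `t ∈ ker θ`
  (`ker θ` lies over `(0) ⊂ ℤ`, so it is a minimal prime of `R` (incomparability), hence a minimal
  prime over the annihilator `(0)` of `B`, hence an associated prime of `B`).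

This is the characteristic-`0` twin of `twfx_exists_eigen` (`TW/Easy/ExitAlg.lean`).
-/
import Mathlib

set_option autoImplicit false
set_option linter.style.haveILetI false

namespace Fermat.Agent.M59

section

variable {R : Type*} [CommRing R] {B : Type*} [AddCommGroup B] [Module.Finite ℤ B]
  {K : Type*} [CommRing K] [IsDomain K] [CharZero K]

/-- **a characteristic-`0` eigenvector for `ker θ`.** -/
theorem m59io_exists_eigen0 [Module.Finite ℤ R]
    (act : R →+* Module.End ℤ B) (hact : Function.Injective act) (θ : R →+* K) :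
    ∃ x : B, x ≠ 0 ∧ ∀ t : R, θ t = 0 → act t x = 0 := by
  classical
  haveI : IsNoetherianRing R :=
    isNoetherian_of_tower ℤ (isNoetherian_of_isNoetherianRing_of_finite ℤ R)
  letI : Module R B := Module.compHom B act
  have hsmul : ∀ (t : R) (x : B), t • x = act t x := fun _ _ => rfl
  haveI : IsScalarTower ℤ R B := ⟨fun n t x => by
    rw [hsmul, hsmul, map_zsmul, LinearMap.smul_apply]⟩
  haveI : Module.Finite R B := Module.Finite.of_restrictScalars_finite ℤ R B
  -- the annihilator of `B` is zero
  have hann : Module.annihilator R B = ⊥ := by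
    rw [eq_bot_iff]
    intro t ht
    rw [Ideal.mem_bot]
    apply hact
    rw [map_zero]
    refine LinearMap.ext fun x => ?_
    have h1 : t • x = 0 := Module.mem_annihilator.mp ht x
    rw [hsmul] at h1
    rw [h1, LinearMap.zero_apply]
  haveI hker : (RingHom.ker θ).IsPrime := RingHom.ker_isPrime θ
  -- `ker θ` lies over `(0)`
  have hcomap : (RingHom.ker θ).comap (algebraMap ℤ R) = ⊥ := by
    rw [eq_bot_iff]
    intro n hn
    rw [Ideal.mem_comap, RingHom.mem_ker, eq_intCast, map_intCast] at hn
    rw [Ideal.mem_bot]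
    exact_mod_cast hn
  haveI : Algebra.IsIntegral ℤ R := Algebra.IsIntegral.of_finite ℤ R
  -- `ker θ` is minimal over the annihilator
  have hmin : RingHom.ker θ ∈ (Module.annihilator R B).minimalPrimes := by
    refine ⟨⟨hker, by rw [hann]; exact bot_le⟩, ?_⟩
    rintro 𝔮 ⟨h𝔮, -⟩ h𝔮le
    haveI := h𝔮
    by_contra hnot
    obtain ⟨x, hxk, hxq⟩ := Set.not_subset.mp hnot
    have hlt := Ideal.comap_lt_comap_of_integral_mem_sdiff (R := ℤ) h𝔮le ⟨hxk, hxq⟩
      (Algebra.IsIntegral.isIntegral x)
    rw [hcomap] at hlt
    exact not_lt_bot hlt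
  have hass : RingHom.ker θ ∈ associatedPrimes R B :=
    Module.associatedPrimes.minimalPrimes_annihilator_subset_associatedPrimes R B hmin
  obtain ⟨-, v, hv⟩ := (Submodule.isAssociatedPrime_iff).mp hass
  refine ⟨v, ?_, ?_⟩
  · intro hv0
    have h1 : (1 : R) ∈ RingHom.ker θ := by
      rw [hv, Submodule.mem_colon_singleton, hv0, smul_zero]
      exact Submodule.zero_mem _
    exact hker.ne_top ((Ideal.eq_top_iff_one _).mpr h1)
  · intro t ht
    have h1 : t ∈ RingHom.ker θ := ht
    rw [hv, Submodule.mem_colon_singleton, Submodule.mem_bot] at h1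
    rw [← hsmul]
    exact h1

end

end Fermat.Agent.M59
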