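/-
M59 / ENGINE, LEVEL 1, cell [EXIT-0] (helper18).  Prefix `m59io_`.

`m59io_exit0 : m59e_Exit0_stmt` (the Prop landed in `M59/Top/EngSeams.lean`), UNCONDITIONAL.

* `m59io_chi_eq` : compatibility of `χ` and `ρ` at one Frobenius element at `ℓ`
  (`Fermat.Agent.S54.exists_isFrobeniusAt`) together with Eichler–Shimura for `W`
  (`m59e_IsTate.frob`) gives `χ(T_ℓ) = a_ℓ(W)` in `𝒪`, for the primes `ℓ ∤ N`, `ℓ ∉ S`.
* `m59io_lift0` : characteristic-`0` twin of `twfx_lift` (`TW/Easy/Exit.lean`): a ring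
  homomorphism `χ : 𝕋_S(N) → K`, `K` a domain of characteristic `0`, with `χ(T_ℓ) = a_ℓ ∈ ℤ`, gives
  a normalised eigenform `g ∈ S₂(Γ₀(N))` with `a_ℓ(g) = a_ℓ` EXACTLY.  Route: the lattice
  `intLattice N 2` (faithful by S23, `𝕋` finite by S22), `m59io_exists_eigen0`, `lreig_main_char`.
* the level is then raised to `N' := ∏ (primes of S)` by `s58o_lift_coprime` (`S58/OldLift.lean`).
-/
import Mathlib
import Fermat.Agent.M59.Top.EngSeams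
import Fermat.Agent.M59.IO.ExitAlg0
import Fermat.Agent.S22
import Fermat.Agent.S23
import Fermat.Agent.S54.Frobenius
import Fermat.Agent.S58.OldLift
import Fermat.Agent.LR.EIG.Main
import Fermat.Prelude.Def_CuspForm_HeckeLocal

set_option autoImplicit false
set_option linter.unusedSectionVars false
set_option linter.style.haveILetI false

noncomputable section

open CongruenceSubgroup CuspForm ModularFormClass Polynomial IsLocalRing
open Fermat.Agent.LR Fermat.Agent.TW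

namespace Fermat.Agent.M59

/-- two monic quadratics with the same constant term and the same value: equal middle terms. -/
theorem m59io_mid_eq {A : Type*} [CommRing A] {a b c : A}
    (h : (X ^ 2 - C a * X + C c : A[X]) = X ^ 2 - C b * X + C c) : a = b := by
  have h1 := congrArg (fun P : A[X] => P.coeff 1) h
  simp only [coeff_add, coeff_sub, coeff_X_pow, coeff_C_mul, coeff_X_one, coeff_C] at h1
  norm_num at h1
  exact h1

/-- **`χ(T_ℓ) = a_ℓ(W)`** from the two Frobenius identities. -/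
theorem m59io_chi_eq (p : ℕ) (W : WeierstrassCurve ℤ) {𝒪 : Type} [CommRing 𝒪] [IsLocalRing 𝒪]
    (ρ : GaloisRepAdic 𝒪) (hT : m59e_IsTate p W ρ) (S : Finset ℕ) (N : ℕ) [NeZero N]
    (hS : m59e_IsBadSet W p S) (χ : heckeAlgebra N 2 (↑S : Set ℕ) →+* 𝒪)
    (hχ : twt_CompatAdic χ ρ) (ℓ : ℕ) (hℓ : ℓ.Prime) (hℓN : ¬ ℓ ∣ N)
    (hℓS : ℓ ∉ (↑S : Set ℕ)) :
    χ (heckeAlgebra.T hℓ hℓN hℓS) = ((W.apOfModel ℓ : ℤ) : 𝒪) := by
  have hℓp : ℓ ≠ p := fun h => hℓS (by rw [h]; exact Finset.mem_coe.mpr hS.1)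
  have hgood : W.IsGoodPrimeFor ℓ := by
    by_contra h
    exact hℓS (Finset.mem_coe.mpr (hS.2 ℓ hℓ h))
  obtain ⟨A, σ, hA, hσ⟩ := Fermat.Agent.S54.exists_isFrobeniusAt hℓ
  have h1 := hχ ℓ hℓ hℓN hℓS A hA σ hσ
  have h2 := hT.frob ℓ hℓ hℓp hgood A hA σ hσ
  exact m59io_mid_eq (h1.symm.trans h2)

/-- **characteristic-`0` lifting for the Prelude's Hecke algebra.** -/
theorem m59io_lift0 {N : ℕ} [NeZero N] (S : Set ℕ) {K : Type*} [CommRing K] [IsDomain K]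
    [CharZero K] (χ : heckeAlgebra N 2 S →+* K) (a : ℕ → ℤ)
    (hχ : ∀ (ℓ : ℕ) (hℓ : ℓ.Prime) (hℓN : ¬ ℓ ∣ N) (hℓS : ℓ ∉ S),
      χ (heckeAlgebra.T hℓ hℓN hℓS) = ((a ℓ : ℤ) : K)) :
    ∃ g : CuspForm (Gamma0 N) 2, g.IsNormalizedEigenform ∧
      ∀ ℓ : ℕ, ℓ.Prime → ¬ ℓ ∣ N → ℓ ∉ S → qCoeff g ℓ = ((a ℓ : ℤ) : ℂ) := by
  classical
  haveI : Module.Finite ℤ (heckeAlgebra N 2 S) := Fermat.Agent.S22.result N 2 S
  haveI : Module.Finite ℤ ↥(intLattice N 2) := intLattice.moduleFinite N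
  have hact : Function.Injective (latticeActionHom N S) :=
    latticeActionHom_injective N S (Fermat.Agent.S23.result N)
  obtain ⟨x, hx, hxeig⟩ := m59io_exists_eigen0 (latticeActionHom N S) hact χ
  -- the eigenvector as a cusp form
  let g₀ : CuspForm (Gamma0 N) 2 := (x : CuspForm (Gamma0 N) 2)
  have hg₀ : g₀ ≠ 0 := fun h => hx (Subtype.ext h)
  have hg₀eig : ∀ (ℓ : ℕ) (hℓ : ℓ.Prime) (hℓN : ¬ ℓ ∣ N) (hℓS : ℓ ∉ S),
      heckeTLin 2 hℓ hℓN g₀ = ((a ℓ : ℤ) : ℂ) • g₀ := by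
    intro ℓ hℓ hℓN hℓS
    have h0 : χ (heckeAlgebra.T hℓ hℓN hℓS - ((a ℓ : ℤ) : heckeAlgebra N 2 S)) = 0 := by
      rw [map_sub, hχ, map_intCast, sub_self]
    have h1 := hxeig _ h0
    rw [map_sub, map_intCast, LinearMap.sub_apply, sub_eq_zero] at h1
    have h2 := congrArg (Subtype.val : ↥(intLattice N 2) → CuspForm (Gamma0 N) 2) h1
    have h3 : ((latticeActionHom N S (heckeAlgebra.T hℓ hℓN hℓS) x : ↥(intLattice N 2)) :
        CuspForm (Gamma0 N) 2) = heckeTLin 2 hℓ hℓN g₀ := rfl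
    rw [h3] at h2
    rw [h2]
    show ((((a ℓ : ℤ) : Module.End ℤ ↥(intLattice N 2)) x : ↥(intLattice N 2)) :
      CuspForm (Gamma0 N) 2) = _
    rw [Module.End.intCast_apply, Submodule.coe_smul, Int.cast_smul_eq_zsmul]
  -- the normalised eigenform
  let θ' : ℕ → ℂ := fun ℓ => ((a ℓ : ℤ) : ℂ)
  have hne : lreig_charSub (⊤ : Submodule ℂ (CuspForm (Gamma0 N) 2)) S θ' ≠ ⊥ := by
    intro hbot
    apply hg₀
    have hmem : g₀ ∈ lreig_charSub (⊤ : Submodule ℂ (CuspForm (Gamma0 N) 2)) S θ' := by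
      rw [lreig_mem_charSub]
      exact ⟨Submodule.mem_top, fun ℓ hℓ hℓN hℓS => hg₀eig ℓ hℓ hℓN hℓS⟩
    rw [hbot] at hmem
    exact (Submodule.mem_bot ℂ).mp hmem
  obtain ⟨g, -, hg, hgcoef, -, -⟩ := lreig_main_char (⊤ : Submodule ℂ (CuspForm (Gamma0 N) 2)) S θ'
    hne (fun _ _ _ _ _ => Submodule.mem_top) (fun _ _ _ _ _ => Submodule.mem_top)
  exact ⟨g, hg, fun ℓ hℓ hℓN hℓS => hgcoef ℓ hℓ hℓN hℓS⟩

/-- **[EXIT-0]**. -/
theorem m59io_exit0 : m59e_Exit0_stmt := by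
  classical
  intro p _ W _ 𝒪 _ _ _ _ ρ hT S N _ hS hNsq hNS χ hχ
  -- the eigenform of level `N`
  obtain ⟨g, hg, hgc⟩ := m59io_lift0 (↑S : Set ℕ) χ (fun ℓ => W.apOfModel ℓ)
    (fun ℓ hℓ hℓN hℓS => m59io_chi_eq p W ρ hT S N hS χ hχ ℓ hℓ hℓN hℓS)
  -- the level `N'`
  set N' : ℕ := ∏ ℓ ∈ S.filter Nat.Prime, ℓ with hN'
  have hprime : ∀ ℓ ∈ S.filter Nat.Prime, ℓ.Prime := fun ℓ hℓ => (Finset.mem_filter.mp hℓ).2
  have hN'0 : N' ≠ 0 := by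
    rw [hN']
    exact Finset.prod_ne_zero_iff.mpr fun ℓ hℓ => (hprime ℓ hℓ).ne_zero
  have hN'sq : Squarefree N' := by
    rw [hN']
    refine Finset.squarefree_prod_of_pairwise_isCoprime ?_ ?_
    · intro ℓ hℓ r hr hne
      exact Nat.coprime_iff_isRelPrime.mp
        ((Nat.coprime_primes (hprime ℓ hℓ) (hprime r hr)).mpr hne)
    · intro ℓ hℓ
      exact (hprime ℓ hℓ).prime.squarefree
  have hSN' : ∀ ℓ ∈ S, ℓ.Prime → ℓ ∣ N' := fun ℓ hℓS hℓ =>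
    Finset.dvd_prod_of_mem _ (Finset.mem_filter.mpr ⟨hℓS, hℓ⟩)
  have hNN' : N ∣ N' := by
    rw [← Nat.prod_primeFactors_of_squarefree hNsq, hN']
    refine Finset.prod_dvd_prod_of_subset _ _ _ fun ℓ hℓ => ?_
    have hℓp := Nat.prime_of_mem_primeFactors hℓ
    exact Finset.mem_filter.mpr ⟨hNS ℓ hℓp (Nat.dvd_of_mem_primeFactors hℓ), hℓp⟩
  obtain ⟨g', hg', hc⟩ := Fermat.Agent.S58.s58o_lift_coprime hNN' hN'0 hg
  refine ⟨N', hN'sq, hSN', g', hg', fun ℓ hℓ hgood hℓN' => ?_⟩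
  have hℓS : ℓ ∉ (↑S : Set ℕ) := fun h => hℓN' (hSN' ℓ (Finset.mem_coe.mp h) hℓ)
  have hℓN : ¬ ℓ ∣ N := fun h => hℓN' (dvd_trans h hNN')
  rw [hc ℓ ((Nat.Prime.coprime_iff_not_dvd hℓ).mpr hℓN'), hgc ℓ hℓ hℓN hℓS]

end Fermat.Agent.M59
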